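import Fermat.Agent.S55.Local.H664.Galois

/-!
# S55 layer L, piece UR5 (helper664): abstract assembly

`B ⊆ C` discrete valuation rings with finite residue fields, `C` finite over `B` and equal to the
integral closure of `B` in `N ⊇ L = Frac B`, `N / L` Galois and generated by a root of unity
`ζ ∈ C` of exact order `Q ^ n - 1`, `Q = #k_B`.  Then `[N : L] = n`, `𝔪_C = 𝔪_B C`, and every
nonzero element of `N` is a nonzero element of `L` times a unit of `C`.
-/

set_option autoImplicit false
set_option linter.unusedSectionVars false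
set_option linter.style.haveILetI false

namespace Fermat.Agent.S55.Local.H664

open IsLocalRing Polynomial Module

section Assemble

variable (B L C N : Type) [CommRing B] [IsDomain B] [IsDiscreteValuationRing B]
  [Finite (ResidueField B)]
  [Field L] [Algebra B L] [IsFractionRing B L]
  [CommRing C] [IsDomain C] [IsDiscreteValuationRing C] [Algebra B C]
  [IsLocalHom (algebraMap B C)] [Module.Finite B C] [Module.IsTorsionFree B C]
  [Finite (ResidueField C)]
  [Field N] [Algebra C N] [IsFractionRing C N] [Algebra L N] [Algebra B N]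
  [IsScalarTower B L N] [IsScalarTower B C N] [IsIntegralClosure C B N]
  [FiniteDimensional L N] [IsGalois L N]

theorem finrank_eq_and_maximalIdeal_eq (n : ℕ) (hn : 0 < n) (ζ : C)
    (hζ : ζ ^ (Nat.card (ResidueField B) ^ n - 1) = 1)
    (hord : ∀ i : ℕ, ζ ^ i = 1 → (Nat.card (ResidueField B) ^ n - 1) ∣ i)
    (hgen : ∀ σ τ : N ≃ₐ[L] N, σ (algebraMap C N ζ) = τ (algebraMap C N ζ) → σ = τ) :
    finrank L N = n ∧ maximalIdeal C = (maximalIdeal B).map (algebraMap B C) := by
  have hQ : 1 < Nat.card (ResidueField B) := Finite.one_lt_card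
  have hle : finrank L N ≤ n := finrank_le B L C N n hn ζ hζ hgen
  have hm := natCast_pow_card_sub_one_ne_zero B C n hn
  have h1 : Nat.card (ResidueField B) ^ n - 1 + 1 ≤ Nat.card (ResidueField C) :=
    succ_le_card_residueField C hm ζ hζ hord
  have h2 : 1 ≤ Nat.card (ResidueField B) ^ n := Nat.one_le_pow _ _ (by omega)
  have h3 : Nat.card (ResidueField B) ^ n ≤ Nat.card (ResidueField C) := by omega
  have h4 := card_residueField_le B L C N
  have h5 : n ≤ finrank L N := (Nat.pow_le_pow_iff_right hQ).mp (h3.trans h4)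
  have h6 : finrank L N = n := le_antisymm hle h5
  refine ⟨h6, maximalIdeal_eq_map_of_card_le B L C N ?_⟩
  rw [h6]
  exact h3

/-- In the unramified situation, every nonzero element of `N` is the product of a nonzero
element of `L` and a unit of `C`. -/
theorem exists_mul_unit_of_maximalIdeal_eq
    (hmax : maximalIdeal C = (maximalIdeal B).map (algebraMap B C)) (x : N) (hx : x ≠ 0) :
    ∃ (y : L) (u : Cˣ), y ≠ 0 ∧ x = algebraMap L N y * algebraMap C N u := by
  obtain ⟨ϖ, hϖ⟩ := IsDiscreteValuationRing.exists_irreducible B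
  have hϖ0 : ϖ ≠ 0 := hϖ.ne_zero
  have hmaxC : maximalIdeal C = Ideal.span {algebraMap B C ϖ} := by
    rw [hmax, hϖ.maximalIdeal_eq, Ideal.map_span, Set.image_singleton]
  have hirr : Irreducible (algebraMap B C ϖ) :=
    (IsDiscreteValuationRing.irreducible_iff_uniformizer _).mpr hmaxC
  have hϖL : algebraMap B L ϖ ≠ 0 := by
    rw [Ne, map_eq_zero_iff _ (IsFractionRing.injective B L)]
    exact hϖ0
  have hϖN : algebraMap L N (algebraMap B L ϖ) = algebraMap C N (algebraMap B C ϖ) := by
    rw [← IsScalarTower.algebraMap_apply, ← IsScalarTower.algebraMap_apply]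
  obtain ⟨a, b, hb, rfl⟩ := IsFractionRing.div_surjective (A := C) x
  have hb0 : b ≠ 0 := nonZeroDivisors.ne_zero hb
  have ha0 : a ≠ 0 := by
    rintro rfl
    simp at hx
  obtain ⟨k₁, u₁, rfl⟩ := IsDiscreteValuationRing.eq_unit_mul_pow_irreducible ha0 hirr
  obtain ⟨k₂, u₂, rfl⟩ := IsDiscreteValuationRing.eq_unit_mul_pow_irreducible hb0 hirr
  refine ⟨algebraMap B L ϖ ^ k₁ / algebraMap B L ϖ ^ k₂, u₁ * u₂⁻¹,
    div_ne_zero (pow_ne_zero _ hϖL) (pow_ne_zero _ hϖL), ?_⟩
  have hu₂ : algebraMap C N (u₂ : C) * algebraMap C N ((u₂⁻¹ : Cˣ) : C) = 1 := by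
    rw [← map_mul, Units.mul_inv, map_one]
  have hu₂0 : algebraMap C N (u₂ : C) ≠ 0 := left_ne_zero_of_mul_eq_one hu₂
  have hϖN0 : algebraMap C N (algebraMap B C ϖ) ≠ 0 := by
    rw [← hϖN]
    exact (_root_.map_ne_zero _).mpr hϖL
  rw [map_div₀, map_pow, map_pow, hϖN, Units.val_mul, map_mul, map_mul, map_mul, map_pow,
    map_pow]
  field_simp
  linear_combination (-1 : N) * hu₂

end Assemble

end Fermat.Agent.S55.Local.H664
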