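import Fermat.Agent.S55.Local.H664.Roots

/-!
# S55 layer L, piece UR5 (helper664): abstract core

`B ⊆ C` discrete valuation rings, `C` finite over `B`, fraction fields `L ⊆ N`, residue field
of `B` finite with `Q` elements.

* `card_quot_map` : `#(C / 𝔪_B C) = Q ^ [N : L]`;
* `maximalIdeal_eq_map_of_card_le` : if `Q ^ [N : L] ≤ #k_C` then `𝔪_C = 𝔪_B C`;
* `succ_le_card_residueField` : if `C` contains an element of exact multiplicative order `m`
  and `m` is invertible in `k_C`, then `m + 1 ≤ #k_C`.
-/

set_option autoImplicit false
set_option linter.unusedSectionVars false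
set_option linter.style.haveILetI false

namespace Fermat.Agent.S55.Local.H664

open IsLocalRing Polynomial Module

section Core

variable (B L C N : Type) [CommRing B] [IsDomain B] [IsDiscreteValuationRing B]
  [Finite (ResidueField B)]
  [Field L] [Algebra B L] [IsFractionRing B L]
  [CommRing C] [IsDomain C] [IsDiscreteValuationRing C] [Algebra B C]
  [IsLocalHom (algebraMap B C)] [Module.Finite B C] [Module.IsTorsionFree B C]
  [Field N] [Algebra C N] [IsFractionRing C N] [Algebra L N] [Algebra B N]
  [IsScalarTower B L N] [IsScalarTower B C N]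

attribute [local instance] Ideal.Quotient.field

theorem finrank_quot_map :
    finrank (B ⧸ maximalIdeal B) (C ⧸ (maximalIdeal B).map (algebraMap B C)) = finrank L N := by
  haveI : Module.Free B C := Module.free_of_finite_type_torsion_free'
  rw [IsLocalRing.finrank_quotient_map, IsFractionRing.finrank_eq B L C N]

theorem finite_quot_map : Finite (C ⧸ (maximalIdeal B).map (algebraMap B C)) := by
  haveI : Finite (B ⧸ maximalIdeal B) := ‹Finite (ResidueField B)›
  haveI : Module.Finite (B ⧸ maximalIdeal B) (C ⧸ (maximalIdeal B).map (algebraMap B C)) :=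
    Module.Finite.of_restrictScalars_finite B _ _
  exact Module.finite_of_finite (B ⧸ maximalIdeal B)

theorem card_quot_map :
    Nat.card (C ⧸ (maximalIdeal B).map (algebraMap B C)) =
      Nat.card (ResidueField B) ^ finrank L N := by
  haveI : Finite (B ⧸ maximalIdeal B) := ‹Finite (ResidueField B)›
  haveI := finite_quot_map B C
  letI : Fintype (B ⧸ maximalIdeal B) := Fintype.ofFinite _
  letI : Fintype (C ⧸ (maximalIdeal B).map (algebraMap B C)) := Fintype.ofFinite _
  rw [← finrank_quot_map B L C N, Nat.card_eq_fintype_card,
    Module.card_eq_pow_finrank (K := B ⧸ maximalIdeal B), ← Nat.card_eq_fintype_card]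
  rfl

theorem map_maximalIdeal_le : (maximalIdeal B).map (algebraMap B C) ≤ maximalIdeal C := by
  rw [Ideal.map_le_iff_le_comap]
  intro x hx
  rw [Ideal.mem_comap, mem_maximalIdeal, mem_nonunits_iff] at *
  exact fun h => hx (isUnit_of_map_unit (algebraMap B C) x h)

/-- If the residue field of `C` is at least as large as `C / 𝔪_B C`, the extension is
unramified: `𝔪_C = 𝔪_B C`. -/
theorem maximalIdeal_eq_map_of_card_le
    (h : Nat.card (ResidueField B) ^ finrank L N ≤ Nat.card (ResidueField C)) :
    maximalIdeal C = (maximalIdeal B).map (algebraMap B C) := by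
  haveI := finite_quot_map B C
  have hle := map_maximalIdeal_le B C
  have hsurj := Ideal.Quotient.factor_surjective hle
  have hbij : Function.Bijective (Ideal.Quotient.factor hle) := by
    refine hsurj.bijective_of_nat_card_le ?_
    rw [card_quot_map B L C N]
    exact h
  refine le_antisymm (fun x hx => ?_) hle
  have h0 : Ideal.Quotient.factor hle (Ideal.Quotient.mk _ x) =
      Ideal.Quotient.factor hle (Ideal.Quotient.mk _ 0) := by
    rw [Ideal.Quotient.factor_mk, Ideal.Quotient.factor_mk, map_zero,
      Ideal.Quotient.eq_zero_iff_mem]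
    exact hx
  have := hbij.1 h0
  rwa [map_zero, Ideal.Quotient.eq_zero_iff_mem] at this

/-- the other inequality always holds. -/
theorem card_residueField_le :
    Nat.card (ResidueField C) ≤ Nat.card (ResidueField B) ^ finrank L N := by
  haveI := finite_quot_map B C
  rw [← card_quot_map B L C N]
  exact Nat.card_le_card_of_surjective _
    (Ideal.Quotient.factor_surjective (map_maximalIdeal_le B C))

end Core

section Order

variable (C : Type) [CommRing C] [IsDomain C] [IsLocalRing C] [Finite (ResidueField C)]

/-- If `C` contains a root of unity of exact order `m`, with `m` invertible in the residue field,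
then the residue field has at least `m + 1` elements. -/
theorem succ_le_card_residueField {m : ℕ} (hm : (m : ResidueField C) ≠ 0) (ζ : C)
    (h1 : ζ ^ m = 1) (h2 : ∀ i : ℕ, ζ ^ i = 1 → m ∣ i) :
    m + 1 ≤ Nat.card (ResidueField C) := by
  have hm0 : m ≠ 0 := by
    rintro rfl
    simp at hm
  have hz : (residue C ζ) ^ m = 1 := by rw [← map_pow, h1, map_one]
  have hz0 : residue C ζ ≠ 0 := by
    intro h0
    rw [h0, zero_pow hm0] at hz
    exact zero_ne_one hz
  let u : (ResidueField C)ˣ := Units.mk0 _ hz0
  have hord : orderOf u = m := by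
    rw [orderOf_eq_iff (Nat.pos_of_ne_zero hm0)]
    refine ⟨Units.ext (by simpa [u] using hz), fun i hi hipos hui => ?_⟩
    have h3 : (residue C ζ) ^ i = 1 := by
      have := congrArg Units.val hui
      simpa [u] using this
    have h4 : ζ ^ i = 1 := by
      refine eq_of_residue_eq_of_pow_eq_one hm ?_ (one_pow m) ?_
      · rw [← pow_mul, mul_comm, pow_mul, h1, one_pow]
      · rw [map_pow, h3, map_one]
    have := Nat.le_of_dvd hipos (h2 i h4)
    omega
  have h5 : m ≤ Nat.card (ResidueField C)ˣ := hord ▸ orderOf_le_card
  rw [Nat.card_units] at h5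
  have h6 : 0 < Nat.card (ResidueField C) := Nat.card_pos
  omega

end Order

end Fermat.Agent.S55.Local.H664
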