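import Fermat.Agent.S55.Local.H664.Core

/-!
# S55 layer L, piece UR5 (helper664): the Galois group of `L(ζ_m) / L`, `m = Q ^ n - 1`

`B ⊆ C` local domains with finite residue fields, `C` the integral closure of `B` in the field
`N ⊇ L = Frac B`; `Q = #k_B`.  If `ζ ∈ C` satisfies `ζ ^ (Q ^ n - 1) = 1` then every
`σ ∈ Gal(N / L)` acts on `ζ` as `ζ ↦ ζ ^ (Q ^ j)` for some `j < n` (`exists_pow_of_algEquiv`);
hence if `ζ` generates `N / L` and `N / L` is Galois, `[N : L] ≤ n` (`finrank_le`).
-/

set_option autoImplicit false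
set_option linter.unusedSectionVars false
set_option linter.style.haveILetI false

namespace Fermat.Agent.S55.Local.H664

open IsLocalRing Polynomial Module

section Monoid

/-- If `ζ ^ (Q ^ n - 1) = 1`, the exponent `Q ^ i` only matters through `i % n`. -/
theorem pow_pow_mod_eq {M : Type*} [Monoid M] (Q n : ℕ) (hQ : 0 < Q) (ζ : M)
    (hζ : ζ ^ (Q ^ n - 1) = 1) (i : ℕ) : ζ ^ (Q ^ i) = ζ ^ (Q ^ (i % n)) := by
  have hQn : ζ ^ (Q ^ n) = ζ := by
    have h1 : Q ^ n = (Q ^ n - 1) + 1 := by
      have := Nat.one_le_pow n Q hQ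
      omega
    rw [h1, pow_succ, hζ, one_mul]
  have key : ∀ k r : ℕ, ζ ^ (Q ^ (n * k + r)) = ζ ^ (Q ^ r) := by
    intro k r
    induction k with
    | zero => simp
    | succ k ih =>
      have h2 : Q ^ (n * (k + 1) + r) = Q ^ n * Q ^ (n * k + r) := by
        rw [← pow_add]
        congr 1
        ring
      rw [h2, pow_mul, hQn, ih]
  conv_lhs => rw [← Nat.div_add_mod i n]
  exact key _ _

end Monoid

section Galois

variable (B L C N : Type) [CommRing B] [IsDomain B] [IsLocalRing B]
  [Finite (ResidueField B)]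
  [Field L] [Algebra B L] [IsFractionRing B L]
  [CommRing C] [IsDomain C] [IsLocalRing C] [Algebra B C]
  [IsLocalHom (algebraMap B C)] [Finite (ResidueField C)]
  [Field N] [Algebra C N] [Algebra L N] [Algebra B N]
  [IsScalarTower B L N] [IsScalarTower B C N] [IsIntegralClosure C B N]
  [Algebra.IsAlgebraic L N]

/-- The cardinality of the residue field of `B` is zero in the residue field of `C`. -/
theorem natCast_card_residueField_eq_zero :
    ((Nat.card (ResidueField B) : ℕ) : ResidueField C) = 0 := by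
  letI : Fintype (ResidueField B) := Fintype.ofFinite _
  have h := FiniteField.cast_card_eq_zero (ResidueField B)
  rw [Nat.card_eq_fintype_card,
    ← map_natCast (algebraMap (ResidueField B) (ResidueField C)), h, map_zero]

theorem natCast_pow_card_sub_one_ne_zero (n : ℕ) (hn : 0 < n) :
    ((Nat.card (ResidueField B) ^ n - 1 : ℕ) : ResidueField C) ≠ 0 := by
  have hQ : 1 ≤ Nat.card (ResidueField B) ^ n := Nat.one_le_pow _ _ Nat.card_pos
  rw [Nat.cast_sub hQ, Nat.cast_pow, natCast_card_residueField_eq_zero B C, zero_pow hn.ne']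
  simp

/-- Every `L`-automorphism of `N` acts on a `(Q ^ n - 1)`-th root of unity as a power of the
`Q`-Frobenius. -/
theorem exists_pow_of_algEquiv (n : ℕ) (hn : 0 < n) (ζ : C)
    (hζ : ζ ^ (Nat.card (ResidueField B) ^ n - 1) = 1) (σ : N ≃ₐ[L] N) :
    ∃ j < n, σ (algebraMap C N ζ) = algebraMap C N ζ ^ (Nat.card (ResidueField B) ^ j) := by
  letI : Fintype (ResidueField B) := Fintype.ofFinite _
  have hcard : Fintype.card (ResidueField B) = Nat.card (ResidueField B) :=
    (Nat.card_eq_fintype_card).symm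
  have hQpos : 0 < Nat.card (ResidueField B) := Nat.card_pos
  let τ : C ≃ₐ[B] C := galRestrict B L N C σ
  have hτ : ∀ x, algebraMap C N (τ x) = σ (algebraMap C N x) :=
    algebraMap_galRestrict_apply B σ
  let τ' : ResidueField C ≃ₐ[ResidueField B] ResidueField C := ResidueField.mapAlgEquiv' τ
  obtain ⟨i, hi⟩ :=
    (FiniteField.bijective_frobeniusAlgHom_pow (ResidueField B) (ResidueField C)).2
      (τ' : ResidueField C →ₐ[ResidueField B] ResidueField C)
  have h1 : residue C (τ ζ) = residue C ζ ^ (Nat.card (ResidueField B) ^ (i : ℕ)) := by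
    have := DFunLike.congr_fun hi (residue C ζ)
    simp only [AlgHom.coe_pow, FiniteField.coe_frobeniusAlgHom, pow_iterate, hcard] at this
    rw [this]
    rfl
  have hm := natCast_pow_card_sub_one_ne_zero B C n hn
  have h2 : τ ζ = ζ ^ (Nat.card (ResidueField B) ^ (i : ℕ)) := by
    refine eq_of_residue_eq_of_pow_eq_one hm ?_ ?_ ?_
    · rw [← map_pow, hζ, map_one]
    · rw [← pow_mul, mul_comm, pow_mul, hζ, one_pow]
    · rw [h1, map_pow]
  refine ⟨(i : ℕ) % n, Nat.mod_lt _ hn, ?_⟩
  rw [← hτ, h2, map_pow, ← map_pow, ← map_pow,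
    pow_pow_mod_eq (Nat.card (ResidueField B)) n hQpos ζ hζ i]

/-- If `N / L` is Galois and generated by a `(Q ^ n - 1)`-th root of unity, then
`[N : L] ≤ n`. -/
theorem finrank_le [FiniteDimensional L N] [IsGalois L N] (n : ℕ) (hn : 0 < n) (ζ : C)
    (hζ : ζ ^ (Nat.card (ResidueField B) ^ n - 1) = 1)
    (hgen : ∀ σ τ : N ≃ₐ[L] N, σ (algebraMap C N ζ) = τ (algebraMap C N ζ) → σ = τ) :
    finrank L N ≤ n := by
  rw [← IsGalois.card_aut_eq_finrank]
  choose j hj hjσ using exists_pow_of_algEquiv B L C N n hn ζ hζ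
  have hinj : Function.Injective (fun σ : N ≃ₐ[L] N => (⟨j σ, hj σ⟩ : Fin n)) := by
    intro σ τ h
    apply hgen
    have hjj : j σ = j τ := congrArg Fin.val h
    rw [hjσ σ, hjσ τ, hjj]
  have := Nat.card_le_card_of_injective _ hinj
  simpa using this

end Galois

end Fermat.Agent.S55.Local.H664
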