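import Fermat.Agent.S55.Local.H664.Assemble
import Fermat.Agent.S55.Local.H715.Integers

/-!
# S55 layer L, piece UR5 (helper664): the unramified extension over a complete DVR

`B` a complete discrete valuation ring with finite residue field of cardinality `Q`, fraction
field `L` of characteristic zero, `N / L` a finite Galois extension generated by a primitive
`(Q ^ n - 1)`-th root of unity.  Then `[N : L] = n` and every nonzero element of `N` is the
product of an element of `Lˣ` and a unit of the integral closure of `B` in `N`.
-/

set_option autoImplicit false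
set_option linter.unusedSectionVars false
set_option linter.style.haveILetI false

namespace Fermat.Agent.S55.Local.H664

open IsLocalRing Polynomial Module

section Layer2

variable (B L : Type) [CommRing B] [IsDomain B] [IsDiscreteValuationRing B]
  [IsAdicComplete (maximalIdeal B) B] [Finite (ResidueField B)]
  [Field L] [CharZero L] [Algebra B L] [IsFractionRing B L]
  (N : Type) [Field N] [Algebra L N] [FiniteDimensional L N] [IsGalois L N]
  [Algebra B N] [IsScalarTower B L N]

theorem layer2 (n : ℕ) (hn : 0 < n) (ζ : N)
    (hζ : IsPrimitiveRoot ζ (Nat.card (ResidueField B) ^ n - 1))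
    (hgen : ∀ σ τ : N ≃ₐ[L] N, σ ζ = τ ζ → σ = τ) :
    finrank L N = n ∧ ∀ x : N, x ≠ 0 → ∃ y : L, y ≠ 0 ∧
      IsIntegral B (x * (algebraMap L N y)⁻¹) ∧ IsIntegral B (x * (algebraMap L N y)⁻¹)⁻¹ := by
  haveI := H715.isLocalRing_OL B L N
  haveI := H715.isDiscreteValuationRing_OL B L N
  haveI := H715.finite_OL B L N
  haveI := H715.isFractionRing_OL B L N
  haveI := H715.isLocalHom_OL B L N
  haveI := H715.finite_residueField_OL B L N
  haveI : Module.IsTorsionFree B (integralClosure B N) :=
    Module.isTorsionFree_iff_algebraMap_injective.mpr (H715.algebraMap_injective_OL B L N)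
  have hQ : 1 < Nat.card (ResidueField B) := Finite.one_lt_card
  have hm : 0 < Nat.card (ResidueField B) ^ n - 1 := by
    have : Nat.card (ResidueField B) ^ 1 ≤ Nat.card (ResidueField B) ^ n :=
      Nat.pow_le_pow_right (by omega) hn
    rw [pow_one] at this
    omega
  have hint : IsIntegral B ζ := by
    refine IsIntegral.of_pow hm ?_
    rw [hζ.pow_eq_one]
    exact isIntegral_one
  let ζC : integralClosure B N := ⟨ζ, hint⟩
  have h1 : ζC ^ (Nat.card (ResidueField B) ^ n - 1) = 1 := by
    apply Subtype.ext
    simpa [ζC] using hζ.pow_eq_one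
  have h2 : ∀ i : ℕ, ζC ^ i = 1 → (Nat.card (ResidueField B) ^ n - 1) ∣ i := by
    intro i hi
    apply hζ.dvd_of_pow_eq_one
    have := congrArg (Subtype.val) hi
    simpa [ζC] using this
  obtain ⟨hfin, hmax⟩ :=
    finrank_eq_and_maximalIdeal_eq B L (integralClosure B N) N n hn ζC h1 h2 hgen
  refine ⟨hfin, fun x hx => ?_⟩
  obtain ⟨y, u, hy, rfl⟩ :=
    exists_mul_unit_of_maximalIdeal_eq B L (integralClosure B N) N hmax x hx
  have hyN : algebraMap L N y ≠ 0 := (_root_.map_ne_zero _).mpr hy
  have e1 : algebraMap L N y * algebraMap (integralClosure B N) N u * (algebraMap L N y)⁻¹ =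
      ((u : integralClosure B N) : N) := by
    rw [mul_comm, ← mul_assoc, inv_mul_cancel₀ hyN, one_mul]
    rfl
  have e2 : (((u : integralClosure B N) : N))⁻¹ = (((u⁻¹ : (integralClosure B N)ˣ) :
      integralClosure B N) : N) := by
    apply inv_eq_of_mul_eq_one_right
    have := congrArg (algebraMap (integralClosure B N) N) (Units.mul_inv u)
    rw [map_mul, map_one] at this
    exact this
  refine ⟨y, hy, ?_, ?_⟩
  · rw [e1]
    exact (u : integralClosure B N).2
  · rw [e1, e2]
    exact ((u⁻¹ : (integralClosure B N)ˣ) : integralClosure B N).2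

end Layer2

end Fermat.Agent.S55.Local.H664
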