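import Fermat.Agent.S55.Local.H664.Layer2

/-!
# S55 layer L, piece UR5 (helper664): the unramified extension of a local field

`L` a local field (finite over `F = Frac A`), `Q = resCard A F L` the cardinality of its residue
field.  If `N / L` is a finite Galois extension generated by a primitive `(Q ^ n - 1)`-th root of
unity, then `N / L` is unramified (in the sense of `IsUnram`) of degree `n`.
-/

set_option autoImplicit false
set_option linter.unusedSectionVars false
set_option linter.style.haveILetI false

namespace Fermat.Agent.S55.Local.H664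

open IsLocalRing Polynomial Module Fermat.Agent.S55.Local

section Layer3

variable (A F : Type) [CommRing A] [IsDomain A] [IsDiscreteValuationRing A]
  [IsAdicComplete (maximalIdeal A) A] [Finite (ResidueField A)]
  [Field F] [CharZero F] [Algebra A F] [IsFractionRing A F]
  (L : Type) [Field L] [Algebra F L] [FiniteDimensional F L]

/-- The cardinality of the residue field of the local field `L`. -/
noncomputable def resCard : ℕ :=
  letI := H715.algAL A F L
  haveI := H715.isScalarTower_algAL A F L
  haveI := H715.isLocalRing_OL A F L
  Nat.card (ResidueField (integralClosure A L))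

theorem one_lt_resCard : 1 < resCard A F L := by
  letI := H715.algAL A F L
  haveI := H715.isScalarTower_algAL A F L
  haveI := H715.isLocalRing_OL A F L
  haveI := H715.finite_residueField_OL A F L
  exact Finite.one_lt_card (α := ResidueField (integralClosure A L))

theorem resCard_pow_sub_one_pos (n : ℕ) (hn : 0 < n) : 0 < resCard A F L ^ n - 1 := by
  have hQ := one_lt_resCard A F L
  have : resCard A F L ^ 1 ≤ resCard A F L ^ n := Nat.pow_le_pow_right (by omega) hn
  rw [pow_one] at this
  omega

variable (N : Type) [Field N] [Algebra F N] [Algebra L N] [IsScalarTower F L N]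
  [FiniteDimensional L N] [IsGalois L N]

theorem layer3 (n : ℕ) (hn : 0 < n) (ζ : N) (hζ : IsPrimitiveRoot ζ (resCard A F L ^ n - 1))
    (hgen : ∀ σ τ : N ≃ₐ[L] N, σ ζ = τ ζ → σ = τ) :
    IsUnram A F N L ∧ finrank L N = n := by
  letI := H715.algAL A F L
  haveI := H715.isScalarTower_algAL A F L
  haveI := H715.isLocalRing_OL A F L
  haveI := H715.isDiscreteValuationRing_OL A F L
  haveI := H715.isFractionRing_OL A F L
  haveI := H715.isAdicComplete_OL A F L
  haveI := H715.finite_residueField_OL A F L
  haveI : CharZero L := charZero_of_injective_algebraMap (algebraMap F L).injective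
  haveI : IsScalarTower (integralClosure A L) L N :=
    IsScalarTower.of_algebraMap_eq (fun _ => rfl)
  obtain ⟨hfin, hdec⟩ := layer2 (integralClosure A L) L N n hn ζ hζ hgen
  refine ⟨?_, hfin⟩
  letI := H715.algAL A F N
  haveI := H715.isScalarTower_algAL A F N
  haveI : IsScalarTower A (integralClosure A L) N := IsScalarTower.of_algebraMap_eq (fun a => by
    change algebraMap F N (algebraMap A F a) =
      algebraMap L N (algebraMap F L (algebraMap A F a))
    rw [← IsScalarTower.algebraMap_apply F L N])
  have key : ∀ z : N, IsIntegral (integralClosure A L) z → IsInt A F N z := fun z hz =>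
    (H715.isInt_iff A F N z).mpr (isIntegral_trans z hz)
  intro x
  obtain ⟨y, hy, h1, h2⟩ := hdec (x : N) x.ne_zero
  refine ⟨Units.mk0 y hy, ?_⟩
  have e1 : ((x * (unitsIncl N L (Units.mk0 y hy))⁻¹ : Nˣ) : N) =
      (x : N) * (algebraMap L N y)⁻¹ := by
    rw [Units.val_mul, Units.val_inv_eq_inv_val, unitsIncl_coe, Units.val_mk0]
  have e2 : (((x * (unitsIncl N L (Units.mk0 y hy))⁻¹)⁻¹ : Nˣ) : N) =
      ((x : N) * (algebraMap L N y)⁻¹)⁻¹ := by
    rw [Units.val_inv_eq_inv_val, e1]
  rw [mem_intUnits, e1, e2]
  exact ⟨key _ h1, key _ h2⟩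

end Layer3

end Fermat.Agent.S55.Local.H664
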