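import Fermat.Agent.S55.Local.H664.Layer3
import Fermat.Agent.S55.Local.Spec

/-!
# S55 layer L, piece UR5 (helper664): existence of unramified extensions

`existsUnramExt : ExistsUnramExtStatement`.  For `L / K` finite Galois (local fields) and `n ≥ 1`
we take `N = L(ζ_m)`, `m = Q ^ n - 1` with `Q` the cardinality of the residue field of `L`
(`CyclotomicField m L`).  Then `N / L` is unramified of degree `n` (`layer3`), and `N / K` is
Galois, being the splitting field of `p * (X ^ m - 1)` where `L` is the splitting field of `p`
over `K`.
-/

set_option autoImplicit false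
set_option linter.unusedSectionVars false
set_option linter.style.haveILetI false

namespace Fermat.Agent.S55.Local.H664

open IsLocalRing Polynomial Module Fermat.Agent.S55.Local

section Cyclo

variable (A F : Type) [CommRing A] [IsDomain A] [IsDiscreteValuationRing A]
  [IsAdicComplete (maximalIdeal A) A] [Finite (ResidueField A)]
  [Field F] [CharZero F] [Algebra A F] [IsFractionRing A F]
  (L : Type) [Field L] [Algebra F L] [FiniteDimensional F L]
  (N : Type) [Field N] [Algebra F N] [Algebra L N] [IsScalarTower F L N]

/-- `L(ζ_m) / L` with `m = Q ^ n - 1` is unramified of degree `n`. -/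
theorem isUnram_and_finrank_of_isCyclotomicExtension (n : ℕ) (hn : 0 < n)
    [IsCyclotomicExtension {resCard A F L ^ n - 1} L N] :
    IsUnram A F N L ∧ finrank L N = n := by
  have hm : resCard A F L ^ n - 1 ≠ 0 := (resCard_pow_sub_one_pos A F L n hn).ne'
  haveI : NeZero (resCard A F L ^ n - 1) := ⟨hm⟩
  haveI : FiniteDimensional L N :=
    IsCyclotomicExtension.finiteDimensional {resCard A F L ^ n - 1} L N
  haveI : IsGalois L N := IsCyclotomicExtension.isGalois {resCard A F L ^ n - 1} L N
  obtain ⟨ζ, hζ⟩ := IsCyclotomicExtension.exists_isPrimitiveRoot L N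
    (Set.mem_singleton (resCard A F L ^ n - 1)) hm
  refine layer3 A F L N n hn ζ hζ (fun σ τ h => ?_)
  refine IsCyclotomicExtension.algEquiv_eq_of_apply_eq {resCard A F L ^ n - 1} L N
    (fun k hk _ => ⟨ζ, ?_, h⟩)
  rw [Set.mem_singleton_iff.mp hk]
  exact hζ

end Cyclo

section GaloisOverK

variable (K L N : Type) [Field K] [Field L] [Field N] [Algebra K L] [Algebra L N] [Algebra K N]
  [IsScalarTower K L N] [CharZero K] [FiniteDimensional K L] [IsGalois K L]

/-- A cyclotomic extension of a finite Galois extension (in characteristic zero) is Galois over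
the base. -/
theorem isGalois_of_isCyclotomicExtension (m : ℕ) [NeZero m] [IsCyclotomicExtension {m} L N] :
    IsGalois K N := by
  obtain ⟨p, hp, hsplit⟩ := IsGalois.is_separable_splitting_field K L
  haveI := hsplit
  haveI : IsSplittingField L N ((X ^ m - 1 : K[X]).map (algebraMap K L)) := by
    rw [Polynomial.map_sub, Polynomial.map_pow, Polynomial.map_X, Polynomial.map_one]
    exact IsCyclotomicExtension.isSplittingField_X_pow_sub_one m L N
  have hX : (X ^ m - 1 : K[X]) ≠ 0 := by
    have := X_pow_sub_C_ne_zero (R := K) (NeZero.pos m) 1
    rwa [map_one] at this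
  haveI : IsSplittingField K N (p * (X ^ m - 1)) :=
    IsSplittingField.mul (F := K) (K := L) N p (X ^ m - 1) hp.ne_zero hX
  haveI : Normal K N := Normal.of_isSplittingField (p * (X ^ m - 1))
  haveI : FiniteDimensional L N := IsCyclotomicExtension.finiteDimensional {m} L N
  haveI : FiniteDimensional K N := FiniteDimensional.trans K L N
  exact IsGalois.mk

end GaloisOverK

/-- **UR5**: existence of unramified extensions on top of a given Galois extension. -/
theorem existsUnramExt : ExistsUnramExtStatement := by
  intro A F _ _ _ _ _ _ _ _ _ K _ _ _ L _ _ _ _ _ _ n hn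
  haveI : FiniteDimensional F L := FiniteDimensional.trans F K L
  haveI : CharZero K := charZero_of_injective_algebraMap (algebraMap F K).injective
  haveI : CharZero L := charZero_of_injective_algebraMap (algebraMap F L).injective
  have hm : resCard A F L ^ n - 1 ≠ 0 := (resCard_pow_sub_one_pos A F L n hn).ne'
  haveI : NeZero (resCard A F L ^ n - 1) := ⟨hm⟩
  haveI hFKN : IsScalarTower F K (CyclotomicField (resCard A F L ^ n - 1) L) :=
    IsScalarTower.of_algebraMap_eq (fun x => by
      rw [IsScalarTower.algebraMap_apply F L (CyclotomicField (resCard A F L ^ n - 1) L),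
        IsScalarTower.algebraMap_apply K L (CyclotomicField (resCard A F L ^ n - 1) L),
        ← IsScalarTower.algebraMap_apply F K L])
  haveI hgal : IsGalois K (CyclotomicField (resCard A F L ^ n - 1) L) :=
    isGalois_of_isCyclotomicExtension K L _ (resCard A F L ^ n - 1)
  haveI hfd1 : FiniteDimensional L (CyclotomicField (resCard A F L ^ n - 1) L) :=
    IsCyclotomicExtension.finiteDimensional {resCard A F L ^ n - 1} L _
  haveI hfd : FiniteDimensional K (CyclotomicField (resCard A F L ^ n - 1) L) :=
    FiniteDimensional.trans K L _
  exact ⟨CyclotomicField (resCard A F L ^ n - 1) L, inferInstance, inferInstance, inferInstance,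
    inferInstance, hFKN, inferInstance, inferInstance, hfd, hgal,
    isUnram_and_finrank_of_isCyclotomicExtension A F L _ n hn⟩

end Fermat.Agent.S55.Local.H664
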