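import Mathlib

/-!
# S55 layer L, piece UR5 (helper664): roots of unity in a local domain

In a local domain `C` whose residue field has `(m : k) ≠ 0`, the reduction map is injective
on `m`-th roots of unity.
-/

set_option autoImplicit false

namespace Fermat.Agent.S55.Local.H664

open IsLocalRing

section Roots

variable {C : Type*} [CommRing C] [IsDomain C] [IsLocalRing C]

/-- An `m`-th root of unity which is congruent to `1` modulo the maximal ideal is `1`, provided
`m` is invertible in the residue field. -/
theorem eq_one_of_residue_eq_one {m : ℕ} (hm : (m : ResidueField C) ≠ 0) {w : C}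
    (hw : w ^ m = 1) (h : residue C w = 1) : w = 1 := by
  by_contra hne
  have h1 : (w - 1) * ∑ i ∈ Finset.range m, w ^ i = 0 := by
    rw [mul_geom_sum, hw, sub_self]
  have h2 : ∑ i ∈ Finset.range m, w ^ i = 0 := by
    rcases mul_eq_zero.mp h1 with h0 | h0
    · exact absurd (sub_eq_zero.mp h0) hne
    · exact h0
  have h3 := congrArg (residue C) h2
  rw [map_sum, map_zero] at h3
  simp only [map_pow, h, one_pow, Finset.sum_const, Finset.card_range, nsmul_eq_mul, mul_one]
    at h3
  exact hm h3

/-- Reduction is injective on `m`-th roots of unity. -/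
theorem eq_of_residue_eq_of_pow_eq_one {m : ℕ} (hm : (m : ResidueField C) ≠ 0) {x y : C}
    (hx : x ^ m = 1) (hy : y ^ m = 1) (h : residue C x = residue C y) : x = y := by
  have hm0 : m ≠ 0 := by
    rintro rfl
    simp at hm
  obtain ⟨k, rfl⟩ : ∃ k, m = k + 1 := ⟨m - 1, by omega⟩
  have hw : (x * y ^ k) ^ (k + 1) = 1 := by
    rw [mul_pow, hx, one_mul, ← pow_mul, mul_comm, pow_mul, hy, one_pow]
  have hr : residue C (x * y ^ k) = 1 := by
    rw [map_mul, map_pow, h, ← pow_succ', ← map_pow, hy, map_one]
  have := eq_one_of_residue_eq_one hm hw hr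
  calc x = x * y ^ (k + 1) := by rw [hy, mul_one]
    _ = (x * y ^ k) * y := by rw [pow_succ]; ring
    _ = y := by rw [this, one_mul]

end Roots

end Fermat.Agent.S55.Local.H664
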